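import Fermat.Agent.S41.CSP.Mat.Defs

/-! # S41 / CSP : axiom a4 (UNIT) for the symbol of `Φ` -/

namespace Fermat.Agent.S41.CSP

open Matrix CongruenceSubgroup
open scoped MatrixGroups

variable {k : Type*} [Field k] {N q : ℕ}

theorem A4_mul_00 (γ δ : SL(2, ℤ)) : (γ * δ) 0 0 = γ 0 0 * δ 0 0 + γ 0 1 * δ 1 0 := by
  rw [Matrix.SpecialLinearGroup.coe_mul, Matrix.mul_apply, Fin.sum_univ_two]

theorem A4_mul_01 (γ δ : SL(2, ℤ)) : (γ * δ) 0 1 = γ 0 0 * δ 0 1 + γ 0 1 * δ 1 1 := by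
  rw [Matrix.SpecialLinearGroup.coe_mul, Matrix.mul_apply, Fin.sum_univ_two]

theorem A4_mul_10 (γ δ : SL(2, ℤ)) : (γ * δ) 1 0 = γ 1 0 * δ 0 0 + γ 1 1 * δ 1 0 := by
  rw [Matrix.SpecialLinearGroup.coe_mul, Matrix.mul_apply, Fin.sum_univ_two]

theorem A4_mul_11 (γ δ : SL(2, ℤ)) : (γ * δ) 1 1 = γ 1 0 * δ 0 1 + γ 1 1 * δ 1 1 := by
  rw [Matrix.SpecialLinearGroup.coe_mul, Matrix.mul_apply, Fin.sum_univ_two]

/-- **(UNIT)** `[c; q² a] = [c; a] + τ₀`, `τ₀ := [N; q²]`.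
PROOF.  `γ = [[a,b],[c,d]] ∈ Γ₀(N)` (`exists_mat`).  `N c` is prime to `q²`, so there is `x` with
`q² ∣ C := c - N (c x + d)`.  `δ := γ * uMat x * lMat (-N) = [[A,B],[C,D]]` with `A = a - N (a x + b)`, `B = a x + b`,
`D = c x + d`; note `A + B N = a`, `C + D N = c`; `N ∣ C`, so `N ∣ C / q²` (`q` prime to `N`).
`δ' := mk2 A (q² B) (C / q²) D _ ∈ Γ₀(N)`; `hR` gives `Φ δ = Φ δ'`; `Φ δ = Φ γ` (`mul`, `Φ_u`, `Φ_l`).
Let `γ₀` have first column `(q², N)` (`exists_mat`).  `δ' * γ₀` has first column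
`(A q² + q² B N, (C/q²) q² + D N) = (q² a, c)`.  So `S c (q² a) = Φ (δ' γ₀) = Φ δ' + Φ γ₀ = S c a + S N (q²)`. -/
theorem PhiAx.a4 (X : PhiAx k N q) (hq : q.Prime) (hqN : Nat.Coprime q N) (a c : ℤ) (hc : (N : ℤ) ∣ c)
    (h : IsCoprime a c) (hqc : IsCoprime (q : ℤ) c) :
    X.S c ((q : ℤ) ^ 2 * a) = X.S c a + X.S N ((q : ℤ) ^ 2) := by
  obtain ⟨γ, hγ, h00, h10⟩ := exists_mat (N := N) hc h
  have hdet := det2 γ
  obtain ⟨b, hb⟩ : ∃ b, b = γ 0 1 := ⟨_, rfl⟩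
  obtain ⟨d, hd⟩ : ∃ d, d = γ 1 1 := ⟨_, rfl⟩
  rw [h00, h10, ← hb, ← hd] at hdet
  have hqN' : IsCoprime (q : ℤ) (N : ℤ) := Nat.isCoprime_iff_coprime.2 hqN
  have hcop : IsCoprime ((N : ℤ) * c) ((q : ℤ) ^ 2) :=
    (IsCoprime.mul_left hqN'.symm hqc.symm).pow_right
  obtain ⟨u, v, huv⟩ := hcop
  obtain ⟨x, hx⟩ : ∃ x, x = u * (c - N * d) := ⟨_, rfl⟩
  obtain ⟨C', hC'⟩ : ∃ C', C' = v * (c - N * d) := ⟨_, rfl⟩
  have hC : c - N * (c * x + d) = (q : ℤ) ^ 2 * C' := by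
    rw [hx, hC']
    linear_combination (-(c - N * d)) * huv
  have hNC' : (N : ℤ) ∣ C' := by
    have h1 : (N : ℤ) ∣ (q : ℤ) ^ 2 * C' := by
      rw [← hC]
      exact dvd_sub hc (dvd_mul_right _ _)
    exact (hqN'.symm.pow_right).dvd_of_dvd_mul_left h1
  -- `δ`
  have hγu : γ * uMat x ∈ Gamma0 N := mul_mem hγ (uMat_mem x)
  have hl : lMat (-(N : ℤ)) ∈ Gamma0 N := lMat_mem (dvd_neg.2 dvd_rfl)
  have hδ : γ * uMat x * lMat (-(N : ℤ)) ∈ Gamma0 N := mul_mem hγu hl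
  have hΦδ : X.Φ (γ * uMat x * lMat (-(N : ℤ))) = X.Φ γ := by
    rw [X.mul _ _ hγu hl, X.mul _ _ hγ (uMat_mem x), X.Φ_u, X.Φ_l (dvd_neg.2 dvd_rfl), add_zero,
      add_zero]
  have e00 : (γ * uMat x * lMat (-(N : ℤ))) 0 0 = a - N * (a * x + b) := by
    simp only [A4_mul_00, A4_mul_01, uMat, lMat, mk2_00, mk2_01, mk2_10, mk2_11, h00, ← hb]
    ring
  have e01 : (γ * uMat x * lMat (-(N : ℤ))) 0 1 = a * x + b := by
    simp only [A4_mul_00, A4_mul_01, uMat, lMat, mk2_00, mk2_01, mk2_10, mk2_11, h00, ← hb]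
    ring
  have e10 : (γ * uMat x * lMat (-(N : ℤ))) 1 0 = c - N * (c * x + d) := by
    simp only [A4_mul_10, A4_mul_11, uMat, lMat, mk2_00, mk2_01, mk2_10, mk2_11, h10, ← hd]
    ring
  have e11 : (γ * uMat x * lMat (-(N : ℤ))) 1 1 = c * x + d := by
    simp only [A4_mul_10, A4_mul_11, uMat, lMat, mk2_00, mk2_01, mk2_10, mk2_11, h10, ← hd]
    ring
  -- `δ'`
  have hdet' : (a - N * (a * x + b)) * (c * x + d) - (q : ℤ) ^ 2 * (a * x + b) * C' = 1 := by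
    linear_combination hdet + (a * x + b) * hC
  have hδ' : mk2 (a - N * (a * x + b)) ((q : ℤ) ^ 2 * (a * x + b)) C' (c * x + d) hdet'
      ∈ Gamma0 N := by
    rw [mem_Gamma0_iff, mk2_10]
    exact hNC'
  have hΦδ' : X.Φ (γ * uMat x * lMat (-(N : ℤ))) =
      X.Φ (mk2 (a - N * (a * x + b)) ((q : ℤ) ^ 2 * (a * x + b)) C' (c * x + d) hdet') :=
    X.hR _ _ hδ hδ' (by rw [mk2_00, e00]) (by rw [mk2_11, e11]) (by rw [mk2_01, e01])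
      (by rw [mk2_10, e10, hC])
  -- `γ₀`
  obtain ⟨γ₀, hγ₀, g00, g10⟩ := exists_mat (N := N) (a := (q : ℤ) ^ 2) (c := (N : ℤ)) dvd_rfl
    hqN'.pow_left
  have hprod := mul_mem hδ' hγ₀
  have p00 : (mk2 (a - N * (a * x + b)) ((q : ℤ) ^ 2 * (a * x + b)) C' (c * x + d) hdet' * γ₀) 0 0
      = (q : ℤ) ^ 2 * a := by
    rw [A4_mul_00, mk2_00, mk2_01, g00, g10]
    ring
  have p10 : (mk2 (a - N * (a * x + b)) ((q : ℤ) ^ 2 * (a * x + b)) C' (c * x + d) hdet' * γ₀) 1 0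
      = c := by
    rw [A4_mul_10, mk2_10, mk2_11, g00, g10]
    linear_combination -hC
  have s1 := X.S_eq hprod
  rw [p00, p10, X.mul _ _ hδ' hγ₀, ← hΦδ', hΦδ] at s1
  have s2 := X.S_eq hγ
  rw [h00, h10] at s2
  have s3 := X.S_eq hγ₀
  rw [g00, g10] at s3
  rw [s1, s2, s3]

end Fermat.Agent.S41.CSP
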