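import Fermat.Agent.S41.CSP.Mat.A123

/-! # S41 / CSP : axiom a5 (Q) for the symbol of `Φ` -/

namespace Fermat.Agent.S41.CSP

open Matrix CongruenceSubgroup
open scoped MatrixGroups

variable {k : Type*} [Field k] {N q : ℕ}

/-- **(Q)** `[c s; 1 + α s] = [c; α] - [c; a']` when `a' (1 + α s) ≡ α mod c`.
PROOF.  `γ₁ = [[α,b₁],[c,d₁]] ∈ Γ₀(N)` (`exists_mat`), `d₂ := d₁ + s`.  `α d₂ = 1 + b₁ c + α s ≡ 1 + α s mod c`, and
`1 + α s` is prime to `c` (from `h`: `a' (1 + α s) ≡ α`, `α` prime to `c`), so `d₂` is prime to `c`: there are `a₂, b₂` with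
`a₂ d₂ - b₂ c = 1`; `γ₂ := mk2 a₂ b₂ c d₂ _ ∈ Γ₀(N)`.  First column of `γ₁ * γ₂⁻¹` (`γ₂⁻¹ = [[d₂,-b₂],[-c,a₂]]`,
`Matrix.SpecialLinearGroup.SL2_inv_expl`) is `(α d₂ - b₁ c, c d₂ - d₁ c) = (1 + α s, c s)`.
So `S (c s) (1 + α s) = Φ γ₁ - Φ γ₂ = S c α - S c a₂`.  Finally `a' ≡ a₂ mod c`
(`a' d₂ α ≡ a' (1 + α s) ≡ α`, so `a' d₂ ≡ 1 ≡ a₂ d₂`, `d₂` a unit mod `c`), hence `S c a' = S c a₂` by `PhiAx.a1`. -/
theorem PhiAx.a5 (X : PhiAx k N q) (α a' c s : ℤ) (hc : (N : ℤ) ∣ c) (hα : IsCoprime α c)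
    (ha' : IsCoprime a' c) (h : c ∣ a' * (1 + α * s) - α) :
    X.S (c * s) (1 + α * s) = X.S c α - X.S c a' := by
  obtain ⟨γ₁, hγ₁, h0, h1⟩ := exists_mat (N := N) hc hα
  have hdet := det2 γ₁
  rw [h0, h1] at hdet
  set b₁ := γ₁ 0 1 with hb₁
  set d₁ := γ₁ 1 1 with hd₁
  -- `a' (d₁ + s) ≡ 1 mod c`
  have hdvd : c ∣ (a' * (d₁ + s) - 1) * α := by
    have e : (a' * (d₁ + s) - 1) * α = (a' * (1 + α * s) - α) + c * (a' * b₁) := by
      linear_combination a' * hdet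
    rw [e]
    exact dvd_add h (dvd_mul_right _ _)
  obtain ⟨w, hw⟩ := hα.symm.dvd_of_dvd_mul_right hdvd
  let γ₂ : SL(2, ℤ) := mk2 a' w c (d₁ + s) (by linear_combination hw)
  let δ : SL(2, ℤ) := mk2 (d₁ + s) (-w) (-c) a' (by linear_combination hw)
  have hγ₂ : γ₂ ∈ Gamma0 N := by rw [mem_Gamma0_iff]; exact hc
  have hδ : δ ∈ Gamma0 N := by
    rw [mem_Gamma0_iff]
    exact (dvd_neg.2 hc)
  have hone : γ₂ * δ = 1 := by
    apply ext2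
    · rw [Defs_mul_apply]
      simp only [γ₂, δ, mk2_00, mk2_01, mk2_10, Matrix.SpecialLinearGroup.coe_one,
        Matrix.one_apply_eq]
      linear_combination hw
    · rw [Defs_mul_apply]
      simp only [γ₂, δ, mk2_00, mk2_01, mk2_11, Matrix.SpecialLinearGroup.coe_one]
      simp
      ring
    · rw [Defs_mul_apply]
      simp only [γ₂, δ, mk2_00, mk2_10, mk2_11, Matrix.SpecialLinearGroup.coe_one]
      simp
      ring
    · rw [Defs_mul_apply]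
      simp only [γ₂, δ, mk2_01, mk2_10, mk2_11, Matrix.SpecialLinearGroup.coe_one,
        Matrix.one_apply_eq]
      linear_combination hw
  have hΦδ : X.Φ δ = - X.Φ γ₂ := by
    have h2 := X.mul γ₂ δ hγ₂ hδ
    rw [hone, X.Φ_one] at h2
    exact eq_neg_of_add_eq_zero_right h2.symm
  have hprod : γ₁ * δ ∈ Gamma0 N := mul_mem hγ₁ hδ
  have e0 : (γ₁ * δ) 0 0 = 1 + α * s := by
    rw [Defs_mul_apply, h0]
    simp only [δ, mk2_00, mk2_10]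
    linear_combination hdet
  have e1 : (γ₁ * δ) 1 0 = c * s := by
    rw [Defs_mul_apply, h1]
    simp only [δ, mk2_00, mk2_10]
    ring
  have h3 := X.S_eq hprod
  rw [e0, e1, X.mul _ _ hγ₁ hδ, hΦδ] at h3
  have h4 := X.S_eq hγ₁
  rw [h0, h1] at h4
  have h5 := X.S_eq hγ₂
  have e2 : γ₂ 1 0 = c := rfl
  have e3 : γ₂ 0 0 = a' := rfl
  rw [e2, e3] at h5
  rw [h3, h4, h5, sub_eq_add_neg]

end Fermat.Agent.S41.CSP
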