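import Fermat.Agent.S41.CSP.Mat.Defs

/-! # S41 / CSP : axioms a1, a2, a3 for the symbol of `Φ` -/

namespace Fermat.Agent.S41.CSP

open Matrix CongruenceSubgroup
open scoped MatrixGroups

variable {k : Type*} [Field k] {N q : ℕ}

/-- left multiplication by `u(x)`: take `γ` with first column `(a,c)` (`exists_mat`); `uMat x * γ` has first
column `(a + x c, c)`; use `S_eq` twice, `mul`, `Φ_u`. -/
theorem PhiAx.a1 (X : PhiAx k N q) (a c x : ℤ) (hc : (N : ℤ) ∣ c) (h : IsCoprime a c) :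
    X.S c (a + x * c) = X.S c a := by
  obtain ⟨γ, hγ, h0, h1⟩ := exists_mat (N := N) hc h
  have hδ : uMat x * γ ∈ Gamma0 N := mul_mem (uMat_mem x) hγ
  have e0 : (uMat x * γ) 0 0 = a + x * c := by
    rw [Matrix.SpecialLinearGroup.coe_mul, Matrix.mul_apply, Fin.sum_univ_two, h0, h1]
    simp [uMat]
  have e1 : (uMat x * γ) 1 0 = c := by
    rw [Matrix.SpecialLinearGroup.coe_mul, Matrix.mul_apply, Fin.sum_univ_two, h0, h1]
    simp [uMat]
  have h2 := X.S_eq hδ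
  have h3 := X.S_eq hγ
  rw [e0, e1, X.mul _ _ (uMat_mem x) hγ, X.Φ_u, zero_add] at h2
  rw [h0, h1] at h3
  rw [h2, h3]

/-- left multiplication by `l(N y)`. -/
theorem PhiAx.a2 (X : PhiAx k N q) (a c y : ℤ) (hc : (N : ℤ) ∣ c) (h : IsCoprime a c) :
    X.S (c + N * y * a) a = X.S c a := by
  obtain ⟨γ, hγ, h0, h1⟩ := exists_mat (N := N) hc h
  have hl : lMat ((N : ℤ) * y) ∈ Gamma0 N := lMat_mem (dvd_mul_right _ _)
  have hδ : lMat ((N : ℤ) * y) * γ ∈ Gamma0 N := mul_mem hl hγ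
  have e0 : (lMat ((N : ℤ) * y) * γ) 0 0 = a := by
    rw [Matrix.SpecialLinearGroup.coe_mul, Matrix.mul_apply, Fin.sum_univ_two, h0, h1]
    simp [lMat]
  have e1 : (lMat ((N : ℤ) * y) * γ) 1 0 = c + N * y * a := by
    rw [Matrix.SpecialLinearGroup.coe_mul, Matrix.mul_apply, Fin.sum_univ_two, h0, h1]
    simp [lMat]
    ring
  have h2 := X.S_eq hδ
  have h3 := X.S_eq hγ
  rw [e0, e1, X.mul _ _ hl hγ, X.Φ_l (dvd_mul_right _ _), zero_add] at h2
  rw [h0, h1] at h3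
  rw [h2, h3]

/-- `lMat c` has first column `(1,c)`. -/
theorem PhiAx.a3 (X : PhiAx k N q) (c : ℤ) (hc : (N : ℤ) ∣ c) : X.S c 1 = 0 := by
  have h2 := X.S_eq (lMat_mem (N := N) hc)
  have e0 : (lMat c) 0 0 = 1 := rfl
  have e1 : (lMat c) 1 0 = c := rfl
  rw [e0, e1, X.Φ_l hc] at h2
  exact h2

end Fermat.Agent.S41.CSP
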