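import Fermat.Agent.S41.CSP.Sym

/-!
# S41 / CSP : from a homomorphism on `Γ₀(N)` to the abstract symbol (definitions + basic lemmas)
-/

namespace Fermat.Agent.S41.CSP

open Matrix CongruenceSubgroup
open scoped MatrixGroups

/-- the matrix `[[a,b],[c,d]]` of determinant one. -/
def mk2 (a b c d : ℤ) (h : a * d - b * c = 1) : SL(2, ℤ) :=
  ⟨!![a, b; c, d], by rw [Matrix.det_fin_two_of]; exact h⟩

@[simp] theorem mk2_00 (a b c d : ℤ) (h) : (mk2 a b c d h) 0 0 = a := rfl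
@[simp] theorem mk2_01 (a b c d : ℤ) (h) : (mk2 a b c d h) 0 1 = b := rfl
@[simp] theorem mk2_10 (a b c d : ℤ) (h) : (mk2 a b c d h) 1 0 = c := rfl
@[simp] theorem mk2_11 (a b c d : ℤ) (h) : (mk2 a b c d h) 1 1 = d := rfl

/-- `u(x) = [[1,x],[0,1]]`. -/
def uMat (x : ℤ) : SL(2, ℤ) := mk2 1 x 0 1 (by ring)
/-- `l(y) = [[1,0],[y,1]]`. -/
def lMat (y : ℤ) : SL(2, ℤ) := mk2 1 0 y 1 (by ring)

/-- The data of CSP-lite: an additive "homomorphism" `Φ` on `Γ₀(N)` (given as a function on `SL(2,ℤ)`,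
only its values on `Γ₀(N)` matter) killing `u(1)`, `l(N)`, and invariant under conjugation by `diag(q²,1)`
where this makes sense. -/
structure PhiAx (k : Type*) [Field k] (N q : ℕ) where
  Φ : SL(2, ℤ) → k
  mul : ∀ γ δ, γ ∈ Gamma0 N → δ ∈ Gamma0 N → Φ (γ * δ) = Φ γ + Φ δ
  hu : Φ (uMat 1) = 0
  hl : Φ (lMat N) = 0
  hR : ∀ γ δ, γ ∈ Gamma0 N → δ ∈ Gamma0 N → δ 0 0 = γ 0 0 → δ 1 1 = γ 1 1 →
    δ 0 1 = (q : ℤ) ^ 2 * γ 0 1 → γ 1 0 = (q : ℤ) ^ 2 * δ 1 0 → Φ γ = Φ δ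

variable {k : Type*} [Field k] {N q : ℕ}

theorem mem_Gamma0_iff {γ : SL(2, ℤ)} : γ ∈ Gamma0 N ↔ (N : ℤ) ∣ γ 1 0 := by
  rw [Gamma0_mem, ZMod.intCast_zmod_eq_zero_iff_dvd]

theorem ext2 {γ δ : SL(2, ℤ)} (h00 : γ 0 0 = δ 0 0) (h01 : γ 0 1 = δ 0 1) (h10 : γ 1 0 = δ 1 0)
    (h11 : γ 1 1 = δ 1 1) : γ = δ := by
  ext i j; fin_cases i <;> fin_cases j <;> assumption

theorem det2 (γ : SL(2, ℤ)) : γ 0 0 * γ 1 1 - γ 0 1 * γ 1 0 = 1 := by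
  have := γ.det_coe; rwa [Matrix.det_fin_two] at this

/-- the symbol attached to `Φ`. -/
noncomputable def PhiAx.S (X : PhiAx k N q) (c a : ℤ) : k := by
  classical
  exact if h : ∃ γ, γ ∈ Gamma0 N ∧ γ 0 0 = a ∧ γ 1 0 = c then X.Φ h.choose else 0

theorem Defs_mul_apply (γ δ : SL(2, ℤ)) (i j : Fin 2) :
    (γ * δ) i j = γ i 0 * δ 0 j + γ i 1 * δ 1 j := by
  rw [Matrix.SpecialLinearGroup.coe_mul, Matrix.mul_apply, Fin.sum_univ_two]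

theorem PhiAx.Φ_one (X : PhiAx k N q) : X.Φ 1 = 0 := by
  have h := X.mul 1 1 (one_mem _) (one_mem _)
  rw [mul_one] at h
  exact (add_eq_left.1 h.symm)

theorem PhiAx.Φ_inv (X : PhiAx k N q) {γ : SL(2, ℤ)} (h : γ ∈ Gamma0 N) : X.Φ γ⁻¹ = - X.Φ γ := by
  have h1 := X.mul γ γ⁻¹ h (inv_mem h)
  rw [mul_inv_cancel, X.Φ_one] at h1
  exact eq_neg_of_add_eq_zero_right h1.symm

theorem uMat_mem (x : ℤ) : uMat x ∈ Gamma0 N := by
  rw [mem_Gamma0_iff, uMat, mk2_10]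
  exact dvd_zero _

theorem lMat_mem {y : ℤ} (h : (N : ℤ) ∣ y) : lMat y ∈ Gamma0 N := by
  rw [mem_Gamma0_iff, lMat, mk2_10]
  exact h

theorem Defs_uMat_add (x y : ℤ) : uMat (x + y) = uMat x * uMat y := by
  apply ext2 <;> rw [Defs_mul_apply] <;> simp [uMat]
  ring

theorem Defs_lMat_add (x y : ℤ) : lMat (x + y) = lMat x * lMat y := by
  apply ext2 <;> rw [Defs_mul_apply] <;> simp [lMat]

theorem Defs_uMat_zero : uMat 0 = 1 := by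
  apply ext2 <;> simp [uMat]

theorem Defs_lMat_zero : lMat 0 = 1 := by
  apply ext2 <;> simp [lMat]

/-- `u(x) = u(1)^x`. -/
theorem PhiAx.Φ_u (X : PhiAx k N q) (x : ℤ) : X.Φ (uMat x) = 0 := by
  induction x using Int.induction_on with
  | zero => rw [Defs_uMat_zero, X.Φ_one]
  | succ i ih =>
    rw [Defs_uMat_add, X.mul _ _ (uMat_mem _) (uMat_mem _), ih, X.hu, add_zero]
  | pred i ih =>
    have h1 : uMat (-(i : ℤ)) = uMat (-(i : ℤ) - 1) * uMat 1 := by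
      rw [← Defs_uMat_add, sub_add_cancel]
    rw [h1, X.mul _ _ (uMat_mem _) (uMat_mem _), X.hu, add_zero] at ih
    exact ih

/-- `l(Ny) = l(N)^y`. -/
theorem PhiAx.Φ_l (X : PhiAx k N q) {y : ℤ} (h : (N : ℤ) ∣ y) : X.Φ (lMat y) = 0 := by
  obtain ⟨t, rfl⟩ := h
  induction t using Int.induction_on with
  | zero => rw [mul_zero, Defs_lMat_zero, X.Φ_one]
  | succ i ih =>
    rw [mul_add, mul_one, Defs_lMat_add,
      X.mul _ _ (lMat_mem (dvd_mul_right _ _)) (lMat_mem dvd_rfl), ih, X.hl, add_zero]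
  | pred i ih =>
    have h1 : lMat ((N : ℤ) * (-(i : ℤ))) = lMat ((N : ℤ) * (-(i : ℤ) - 1)) * lMat N := by
      rw [← Defs_lMat_add]
      congr 1
      ring
    rw [h1, X.mul _ _ (lMat_mem (dvd_mul_right _ _)) (lMat_mem dvd_rfl), X.hl, add_zero] at ih
    exact ih

/-- two elements with the same first column differ by `u(x)` on the right. -/
theorem PhiAx.Φ_eq_of_col (X : PhiAx k N q) {γ δ : SL(2, ℤ)} (hγ : γ ∈ Gamma0 N)
    (h0 : γ 0 0 = δ 0 0) (h1 : γ 1 0 = δ 1 0) : X.Φ γ = X.Φ δ := by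
  have hd : δ = γ * uMat (γ 1 1 * δ 0 1 - γ 0 1 * δ 1 1) := by
    have e1 := det2 γ
    have e2 := det2 δ
    rw [← h0, ← h1] at e2
    apply ext2
    · rw [Defs_mul_apply]
      simp [uMat, h0]
    · rw [Defs_mul_apply]
      simp only [uMat, mk2_01, mk2_11]
      linear_combination (-(δ 0 1)) * e1 + (γ 0 1) * e2
    · rw [Defs_mul_apply]
      simp [uMat, h1]
    · rw [Defs_mul_apply]
      simp only [uMat, mk2_01, mk2_11]
      linear_combination (-(δ 1 1)) * e1 + (γ 1 1) * e2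
  rw [hd, X.mul _ _ hγ (uMat_mem _), X.Φ_u, add_zero]

theorem PhiAx.S_eq (X : PhiAx k N q) {γ : SL(2, ℤ)} (hγ : γ ∈ Gamma0 N) :
    X.S (γ 1 0) (γ 0 0) = X.Φ γ := by
  have h : ∃ δ, δ ∈ Gamma0 N ∧ δ 0 0 = γ 0 0 ∧ δ 1 0 = γ 1 0 := ⟨γ, hγ, rfl, rfl⟩
  rw [PhiAx.S, dif_pos h]
  exact X.Φ_eq_of_col h.choose_spec.1 h.choose_spec.2.1 h.choose_spec.2.2

theorem exists_mat {a c : ℤ} (hc : (N : ℤ) ∣ c) (h : IsCoprime a c) :
    ∃ γ : SL(2, ℤ), γ ∈ Gamma0 N ∧ γ 0 0 = a ∧ γ 1 0 = c := by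
  obtain ⟨u, v, huv⟩ := h
  refine ⟨mk2 a (-v) c u (by linear_combination huv), ?_, rfl, rfl⟩
  rw [mem_Gamma0_iff, mk2_10]
  exact hc

end Fermat.Agent.S41.CSP
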